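import Mathlib

/-
S26 / P1 UBALG (helper3165).  Abstract upper bound `dim S k ≤ C (k+1)^g` from a valuative bound.

Setting: `K` a perfect field, `F / K` a finitely generated field extension with `trdeg = g`,
`S k` (`k : ℕ`) `K`-subspaces of `F`, `h j` finitely many nonzero elements of `F` such that every
valuation subring `V` of `F` containing `K` admits `j` with `h j ∈ V` and `f * h j ^ k ∈ V` for all
`k` and `f ∈ S k`.  Then every `S k` is finite-dimensional and `finrank (S k) ≤ C * (k+1)^g`.

Proof: separating transcendence basis `t`, `E = K(t)`, `F / E` finite separable with basis `b i`.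
* common denominators `Q, Q'` in `K[t]`: `Q / h j` and `Q' * b i` integral over `K[t]`; then
  `Q^k * Q' * f * b i` lies in every valuation ring containing `K[t]`, hence is integral over
  `K[t]`, hence its trace is a polynomial `A i`;
* the same over the degree valuation ring of `E` bounds `deg A i ≤ k * α + β`;
* `f ↦ (A i)` is injective (trace form nondegenerate), so
  `finrank (S k) ≤ [F : E] * (k * α + β + 1)^g`.
-/

namespace Fermat.Agent.S26.UBALG


open MvPolynomial

section Count

variable (ι : Type*) [Fintype ι] (K : Type*) [Field K]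

/-- The space of polynomials of degree `≤ m` in each variable has dimension at most
`(m+1)^#ι`. -/
theorem finrank_restrictDegree_le (m : ℕ) :
    Module.finrank K (restrictDegree ι K m) ≤ (m + 1) ^ Fintype.card ι := by
  classical
  have hfin : Finite {f : ι →₀ ℕ | ∀ a, f a ≤ m} :=
    ((Set.Finite.pi' fun _ ↦ Set.finite_le_nat _).preimage DFunLike.coe_injective.injOn).to_subtype
  have h1 : Module.finrank K (restrictDegree ι K m) = Nat.card {f : ι →₀ ℕ | ∀ a, f a ≤ m} :=
    Module.finrank_eq_nat_card_basis (basisRestrictSupport K {f : ι →₀ ℕ | ∀ a, f a ≤ m})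
  rw [h1]
  have hinj : Function.Injective
      (fun (f : {f : ι →₀ ℕ | ∀ a, f a ≤ m}) (i : ι) => (⟨f.1 i, Nat.lt_succ_of_le (f.2 i)⟩ : Fin (m + 1))) := by
    intro f g hfg
    apply Subtype.ext
    ext i
    have := congrFun hfg i
    simpa using congrArg Fin.val this
  have h2 := Nat.card_le_card_of_injective _ hinj
  simpa using h2

end Count



open MvPolynomial

section DegVal

variable (ι : Type*) (K : Type*) [Field K] (E : Type*) [Field E]
  [Algebra (MvPolynomial ι K) E] [IsFractionRing (MvPolynomial ι K) E]

/-- The "place at infinity" of the rational function field: fractions `a / b` with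
`deg a ≤ deg b`. -/
def degValSubring : ValuationSubring E where
  carrier := {x | ∃ a b : MvPolynomial ι K, b ≠ 0 ∧ a.totalDegree ≤ b.totalDegree ∧
    x = algebraMap (MvPolynomial ι K) E a / algebraMap (MvPolynomial ι K) E b}
  mul_mem' := by
    rintro x y ⟨a, b, hb, hab, rfl⟩ ⟨c, d, hd, hcd, rfl⟩
    refine ⟨a * c, b * d, mul_ne_zero hb hd, ?_, ?_⟩
    · rw [totalDegree_mul_of_isDomain hb hd]
      exact (totalDegree_mul a c).trans (add_le_add hab hcd)
    · rw [map_mul, map_mul, div_mul_div_comm]
  one_mem' := ⟨1, 1, one_ne_zero, le_rfl, by simp⟩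
  add_mem' := by
    rintro x y ⟨a, b, hb, hab, rfl⟩ ⟨c, d, hd, hcd, rfl⟩
    have hb' : algebraMap (MvPolynomial ι K) E b ≠ 0 := by
      simpa using (IsFractionRing.injective (MvPolynomial ι K) E).ne hb
    have hd' : algebraMap (MvPolynomial ι K) E d ≠ 0 := by
      simpa using (IsFractionRing.injective (MvPolynomial ι K) E).ne hd
    refine ⟨a * d + c * b, b * d, mul_ne_zero hb hd, ?_, ?_⟩
    · rw [totalDegree_mul_of_isDomain hb hd]
      refine (totalDegree_add _ _).trans (max_le ?_ ?_)
      · exact (totalDegree_mul a d).trans (add_le_add hab le_rfl)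
      · exact (totalDegree_mul c b).trans (by omega)
    · rw [map_add, map_mul, map_mul, map_mul]
      field_simp
  zero_mem' := ⟨0, 1, one_ne_zero, by simp, by simp⟩
  neg_mem' := by
    rintro x ⟨a, b, hb, hab, rfl⟩
    exact ⟨-a, b, hb, by rwa [totalDegree_neg], by rw [map_neg, neg_div]⟩
  mem_or_inv_mem' := by
    intro x
    obtain ⟨a, b, hb, rfl⟩ := IsFractionRing.div_surjective (MvPolynomial ι K) x
    have hb0 : b ≠ 0 := nonZeroDivisors.ne_zero hb
    rcases le_total a.totalDegree b.totalDegree with h | h
    · exact Or.inl ⟨a, b, hb0, h, rfl⟩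
    · by_cases ha : a = 0
      · subst ha
        exact Or.inl ⟨0, b, hb0, by simp, rfl⟩
      · exact Or.inr ⟨b, a, ha, h, by rw [inv_div]⟩

theorem mem_degValSubring_iff (x : E) :
    x ∈ degValSubring ι K E ↔ ∃ a b : MvPolynomial ι K, b ≠ 0 ∧ a.totalDegree ≤ b.totalDegree ∧
      x = algebraMap (MvPolynomial ι K) E a / algebraMap (MvPolynomial ι K) E b :=
  Iff.rfl

/-- Degree comparison: if `a / b` lies in the degree valuation ring then `deg a ≤ deg b`. -/
theorem totalDegree_le_of_div_mem {a b : MvPolynomial ι K} (hb : b ≠ 0)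
    (h : algebraMap (MvPolynomial ι K) E a / algebraMap (MvPolynomial ι K) E b ∈ degValSubring ι K E) :
    a.totalDegree ≤ b.totalDegree := by
  by_cases ha : a = 0
  · subst ha; simp
  obtain ⟨c, d, hd, hcd, heq⟩ := h
  have hinj := IsFractionRing.injective (MvPolynomial ι K) E
  have hb' : algebraMap (MvPolynomial ι K) E b ≠ 0 := by simpa using hinj.ne hb
  have hd' : algebraMap (MvPolynomial ι K) E d ≠ 0 := by simpa using hinj.ne hd
  have hmul : a * d = c * b := by
    apply hinj
    rw [map_mul, map_mul]
    exact (div_eq_div_iff hb' hd').mp heq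
  have hc : c ≠ 0 := by
    rintro rfl
    rw [zero_mul] at hmul
    exact mul_ne_zero ha hd hmul
  have := congrArg totalDegree hmul
  rw [totalDegree_mul_of_isDomain ha hd, totalDegree_mul_of_isDomain hc hb] at this
  omega

end DegVal



section TraceIntegral

variable {O E F : Type*} [CommRing O] [IsDomain O] [IsIntegrallyClosed O] [Field E] [Field F]
  [Algebra O E] [IsFractionRing O E] [Algebra E F] [Algebra O F] [IsScalarTower O E F]
  [FiniteDimensional E F]

theorem isAlgebraic_of_fractionRing_finite (O E : Type*) {F : Type*} [CommRing O] [IsDomain O]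
    [Field E] [Field F] [Algebra O E] [IsFractionRing O E] [Algebra E F] [Algebra O F]
    [IsScalarTower O E F] [FiniteDimensional E F] (z : F) : IsAlgebraic O z := by
  have h1 : Algebra.IsAlgebraic O E := IsLocalization.isAlgebraic E (nonZeroDivisors O)
  have h2 : Algebra.IsAlgebraic E F := Algebra.IsAlgebraic.of_finite E F
  have h3 : Algebra.IsAlgebraic O F := Algebra.IsAlgebraic.trans O E F
  exact h3.isAlgebraic z

omit [IsIntegrallyClosed O] [IsFractionRing O E] [FiniteDimensional E F] [IsDomain O]
  [IsScalarTower O E F] [Algebra O E] [Algebra E F] in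
/-- An element lying in every valuation subring containing the integral elements over `O`
is integral over `O`. -/
theorem isIntegral_of_forall_valuationSubring (y : F)
    (hy : ∀ V : ValuationSubring F, (∀ x : F, IsIntegral O x → x ∈ V) → y ∈ V) :
    IsIntegral O y := by
  by_contra hcon
  let R : Subring F := (integralClosure O F).toSubring
  have hR : IsIntegrallyClosedIn R F := by
    rw [Subring.isIntegrallyClosedIn_iff]
    intro x hx
    have hx' : IsIntegral (integralClosure O F) x := hx
    exact isIntegral_trans (R := O) (A := integralClosure O F) x hx'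
  have hyR : y ∉ R := hcon
  obtain ⟨V, hV, hyV⟩ := Subring.exists_le_valuationSubring_of_isIntegrallyClosedIn hyR
  exact hyV (hy V fun x hx => hV hx)

/-- Common denominators: for a finite family of elements of `F` there is a nonzero `s : O`
with `s • z j` integral over `O` for all `j`. -/
theorem exists_common_integral_multiple (O E : Type*) {F : Type*} [CommRing O] [IsDomain O]
    [Field E] [Field F] [Algebra O E] [IsFractionRing O E] [Algebra E F] [Algebra O F]
    [IsScalarTower O E F] [FiniteDimensional E F] {J : Type*} [Fintype J] (z : J → F) :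
    ∃ s : O, s ≠ 0 ∧ ∀ j, IsIntegral O (s • z j) := by
  classical
  have h := fun j => (isAlgebraic_of_fractionRing_finite O E (z j)).exists_integral_multiple
  choose y hy0 hy using h
  refine ⟨∏ j, y j, Finset.prod_ne_zero_iff.mpr fun j _ => hy0 j, fun j => ?_⟩
  rw [← Finset.prod_erase_mul Finset.univ y (Finset.mem_univ j), mul_smul]
  exact (hy j).smul _

/-- **Trace integrality.**  `O` an integrally closed domain with fraction field `E`, `F / E` a
finite extension, `h j ∈ F` nonzero and `b i ∈ F` finitely many elements.  There are nonzero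
`s, s' ∈ O` such that: whenever `f ∈ F` satisfies the valuative bound of order `k` with respect
to the `h j` for all valuation subrings of `F` containing the image of `O`, then
`s^k * s' * Tr(f * b i) ∈ O` for all `i`. -/
theorem exists_den_trace {J I : Type*} [Fintype J] [Fintype I] (h : J → F) (hh : ∀ j, h j ≠ 0)
    (b : I → F) :
    ∃ s s' : O, s ≠ 0 ∧ s' ≠ 0 ∧ ∀ (k : ℕ) (f : F),
      (∀ V : ValuationSubring F, (∀ o : O, algebraMap O F o ∈ V) →
        ∃ j, h j ∈ V ∧ f * h j ^ k ∈ V) →
      ∀ i, ∃ o : O, algebraMap O E o =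
        algebraMap O E (s ^ k * s') * Algebra.trace E F (f * b i) := by
  obtain ⟨s, hs0, hs⟩ := exists_common_integral_multiple O E (fun j => (h j)⁻¹)
  obtain ⟨s', hs'0, hs'⟩ := exists_common_integral_multiple O E b
  refine ⟨s, s', hs0, hs'0, fun k f hf i => ?_⟩
  have hint : IsIntegral O ((s ^ k * s') • (f * b i)) := by
    apply isIntegral_of_forall_valuationSubring
    intro V hV
    obtain ⟨j, hjV, hfV⟩ := hf V (fun o => hV _ isIntegral_algebraMap)
    have h1 : s • (h j)⁻¹ ∈ V := hV _ (hs j)
    have h2 : s' • b i ∈ V := hV _ (hs' i)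
    have key : (s ^ k * s') • (f * b i) = (f * h j ^ k) * (s • (h j)⁻¹) ^ k * (s' • b i) := by
      simp only [Algebra.smul_def, map_mul, map_pow, mul_pow]
      have : h j ^ k * ((h j)⁻¹) ^ k = 1 := by
        rw [← mul_pow, mul_inv_cancel₀ (hh j), one_pow]
      calc algebraMap O F s ^ k * algebraMap O F s' * (f * b i)
          = algebraMap O F s ^ k * algebraMap O F s' * (f * b i) * (h j ^ k * ((h j)⁻¹) ^ k) := by
            rw [this, mul_one]
        _ = f * h j ^ k * (algebraMap O F s ^ k * (h j)⁻¹ ^ k) * (algebraMap O F s' * b i) := by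
            ring
    rw [key]
    exact V.mul_mem _ _ (V.mul_mem _ _ hfV (pow_mem h1 k)) h2
  have htr : IsIntegral O (Algebra.trace E F ((s ^ k * s') • (f * b i))) :=
    Algebra.isIntegral_trace hint
  obtain ⟨o, ho⟩ := IsIntegrallyClosed.isIntegral_iff.mp htr
  refine ⟨o, ?_⟩
  rw [ho, ← algebraMap_smul E (s ^ k * s') (f * b i), map_smul, smul_eq_mul]

end TraceIntegral


section Main

open MvPolynomial

/-- **Abstract upper bound (rational function field form).**
`E` is the fraction field of the polynomial ring `K[ι]`, `F / E` is finite separable,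
`S k` are `K`-subspaces of `F` satisfying a valuative bound of order `k` with respect to
finitely many nonzero `h j`.  Then `dim S k ≤ C (k+1)^#ι`. -/
theorem finrank_le_of_valuative_bound_aux
    {K : Type*} [Field K] {ι : Type*} [Fintype ι]
    {E F : Type*} [Field E] [Field F]
    [Algebra (MvPolynomial ι K) E] [IsFractionRing (MvPolynomial ι K) E]
    [Algebra K E] [IsScalarTower K (MvPolynomial ι K) E]
    [Algebra E F] [Algebra K F] [IsScalarTower K E F]
    [FiniteDimensional E F] [Algebra.IsSeparable E F]
    {J : Type*} [Fintype J] (h : J → F) (hh : ∀ j, h j ≠ 0)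
    (S : ℕ → Submodule K F)
    (hS : ∀ V : ValuationSubring F, (∀ c : K, algebraMap K F c ∈ V) →
        ∃ j, h j ∈ V ∧ ∀ k, ∀ f ∈ S k, f * h j ^ k ∈ V) :
    ∃ C : ℕ, ∀ k, Module.Finite K (S k) ∧
      Module.finrank K (S k) ≤ C * (k + 1) ^ Fintype.card ι := by
  classical
  let algPF : Algebra (MvPolynomial ι K) F :=
    ((algebraMap E F).comp (algebraMap (MvPolynomial ι K) E)).toAlgebra
  have : IsScalarTower (MvPolynomial ι K) E F := IsScalarTower.of_algebraMap_eq (fun _ => rfl)
  let algOF : Algebra (degValSubring ι K E) F :=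
    ((algebraMap E F).comp (algebraMap (degValSubring ι K E) E)).toAlgebra
  have : IsScalarTower (degValSubring ι K E) E F :=
    IsScalarTower.of_algebraMap_eq (fun _ => rfl)
  have hinj := IsFractionRing.injective (MvPolynomial ι K) E
  let b := Module.finBasis E F
  obtain ⟨Q, Q', hQ, hQ', hQT⟩ :=
    exists_den_trace (O := MvPolynomial ι K) (E := E) h hh (fun i => b i)
  obtain ⟨s, s', hs, hs', hsT⟩ :=
    exists_den_trace (O := degValSubring ι K E) (E := E) h hh (fun i => b i)
  obtain ⟨as, bs, hbs, -, hs_eq⟩ := s.2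
  obtain ⟨as', bs', hbs', -, hs'_eq⟩ := s'.2
  have has : as ≠ 0 := by
    rintro rfl
    apply hs
    apply Subtype.ext
    rw [hs_eq]; simp
  have has' : as' ≠ 0 := by
    rintro rfl
    apply hs'
    apply Subtype.ext
    rw [hs'_eq]; simp
  -- constants are in every relevant valuation ring
  have hconstK : ∀ c : K, algebraMap K F c =
      algebraMap (MvPolynomial ι K) F (C c) := by
    intro c
    rw [IsScalarTower.algebraMap_apply K E F, IsScalarTower.algebraMap_apply K (MvPolynomial ι K) E]
    rfl
  have hconstO : ∀ c : K, algebraMap K E c ∈ degValSubring ι K E := by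
    intro c
    refine ⟨C c, 1, one_ne_zero, by simp, ?_⟩
    rw [IsScalarTower.algebraMap_apply K (MvPolynomial ι K) E, map_one, div_one]
    rfl
  set α := bs.totalDegree + Q.totalDegree with hα
  set β := bs'.totalDegree + Q'.totalDegree with hβ
  -- the degree bound
  have hdeg : ∀ k, ∀ f ∈ S k, ∀ i, ∃ A : MvPolynomial ι K, A.totalDegree ≤ k * α + β ∧
      algebraMap (MvPolynomial ι K) E A =
        algebraMap (MvPolynomial ι K) E (Q ^ k * Q') * Algebra.trace E F (f * b i) := by
    intro k f hf i
    obtain ⟨A, hA⟩ := hQT k f (fun V hV => by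
      obtain ⟨j, hj, hj'⟩ := hS V (fun c => by rw [hconstK]; exact hV _)
      exact ⟨j, hj, hj' k f hf⟩) i
    obtain ⟨o, ho⟩ := hsT k f (fun V hV => by
      obtain ⟨j, hj, hj'⟩ := hS V (fun c => by
        have := hV ⟨algebraMap K E c, hconstO c⟩
        rw [IsScalarTower.algebraMap_apply K E F]
        exact this)
      exact ⟨j, hj, hj' k f hf⟩) i
    refine ⟨A, ?_, hA⟩
    by_cases hA0 : A = 0
    · subst hA0; simp
    have hQQ : Q ^ k * Q' ≠ 0 := mul_ne_zero (pow_ne_zero k hQ) hQ'
    have hX : as ^ k * as' ≠ 0 := mul_ne_zero (pow_ne_zero k has) has'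
    have hY : bs ^ k * bs' * (Q ^ k * Q') ≠ 0 :=
      mul_ne_zero (mul_ne_zero (pow_ne_zero k hbs) hbs') hQQ
    have hφQQ : algebraMap (MvPolynomial ι K) E (Q ^ k * Q') ≠ 0 := by
      simpa using hinj.ne hQQ
    have hφbs : algebraMap (MvPolynomial ι K) E bs ≠ 0 := by simpa using hinj.ne hbs
    have hφbs' : algebraMap (MvPolynomial ι K) E bs' ≠ 0 := by simpa using hinj.ne hbs'
    have hmem : algebraMap (MvPolynomial ι K) E (as ^ k * as' * A) /
        algebraMap (MvPolynomial ι K) E (bs ^ k * bs' * (Q ^ k * Q')) ∈ degValSubring ι K E := by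
      have htr : Algebra.trace E F (f * b i) =
          algebraMap (MvPolynomial ι K) E A / algebraMap (MvPolynomial ι K) E (Q ^ k * Q') := by
        rw [hA, mul_div_cancel_left₀ _ hφQQ]
      have ho' : (o : E) = ((s : E) ^ k * (s' : E)) * Algebra.trace E F (f * b i) := by
        have := ho
        simpa using this
      have : algebraMap (MvPolynomial ι K) E (as ^ k * as' * A) /
          algebraMap (MvPolynomial ι K) E (bs ^ k * bs' * (Q ^ k * Q')) = (o : E) := by
        rw [ho', htr, hs_eq, hs'_eq]
        simp only [map_mul, map_pow, div_pow]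
        field_simp
      rw [this]
      exact o.2
    have h1 := totalDegree_le_of_div_mem ι K E hY hmem
    rw [totalDegree_mul_of_isDomain hX hA0] at h1
    have h2 : (bs ^ k * bs' * (Q ^ k * Q')).totalDegree ≤
        k * bs.totalDegree + bs'.totalDegree + (k * Q.totalDegree + Q'.totalDegree) := by
      refine (totalDegree_mul _ _).trans (add_le_add ?_ ?_)
      · exact (totalDegree_mul _ _).trans (add_le_add (totalDegree_pow _ _) le_rfl)
      · exact (totalDegree_mul _ _).trans (add_le_add (totalDegree_pow _ _) le_rfl)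
    have h3 : k * α + β = k * bs.totalDegree + bs'.totalDegree +
        (k * Q.totalDegree + Q'.totalDegree) := by
      rw [hα, hβ]; ring
    omega
  -- the linear maps
  let ℓ : ℕ → Fin (Module.finrank E F) → F →ₗ[K] E := fun k i =>
    (LinearMap.mulLeft K (algebraMap (MvPolynomial ι K) E (Q ^ k * Q'))) ∘ₗ
      ((Algebra.trace E F).restrictScalars K) ∘ₗ (LinearMap.mulRight K (b i))
  have hℓ : ∀ k i f, ℓ k i f =
      algebraMap (MvPolynomial ι K) E (Q ^ k * Q') * Algebra.trace E F (f * b i) := by
    intro k i f
    simp [ℓ, mul_assoc]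
  let M : ℕ → Submodule K E := fun k =>
    (restrictDegree ι K (k * α + β)).map (IsScalarTower.toAlgHom K (MvPolynomial ι K) E).toLinearMap
  have hM : ∀ k, ∀ f ∈ S k, ∀ i, ℓ k i f ∈ M k := by
    intro k f hf i
    obtain ⟨A, hAdeg, hA⟩ := hdeg k f hf i
    refine ⟨A, ?_, ?_⟩
    · exact restrictTotalDegree_le_restrictDegree ι K _ ((mem_restrictTotalDegree _ _ _).mpr hAdeg)
    · rw [hℓ, ← hA]; rfl
  let Ψ : ∀ k, S k →ₗ[K] (Fin (Module.finrank E F) → M k) := fun k =>
    LinearMap.pi (fun i => ((ℓ k i).domRestrict (S k)).codRestrict (M k)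
      (fun f => hM k f.1 f.2 i))
  have hΨ : ∀ k, Function.Injective (Ψ k) := by
    intro k
    rw [← LinearMap.ker_eq_bot, LinearMap.ker_eq_bot']
    intro f hf
    have hQQ : Q ^ k * Q' ≠ 0 := mul_ne_zero (pow_ne_zero k hQ) hQ'
    have hφQQ : algebraMap (MvPolynomial ι K) E (Q ^ k * Q') ≠ 0 := by
      simpa using hinj.ne hQQ
    have h0 : ∀ i, Algebra.trace E F ((f : F) * b i) = 0 := by
      intro i
      have := congrArg (fun g => ((g i : M k) : E)) hf
      simp only [Ψ, LinearMap.pi_apply, LinearMap.codRestrict_apply, LinearMap.domRestrict_apply,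
        Pi.zero_apply, ZeroMemClass.coe_zero, hℓ] at this
      exact (mul_eq_zero.mp this).resolve_left hφQQ
    have h1 : Algebra.traceForm E F (f : F) = 0 := by
      apply b.ext
      intro i
      simp [Algebra.traceForm_apply, h0 i]
    have h2 := (traceForm_nondegenerate E F).1 (f : F) (fun y => by rw [h1]; rfl)
    exact Subtype.ext h2
  refine ⟨Module.finrank E F * (α + β + 1) ^ Fintype.card ι, fun k => ⟨?_, ?_⟩⟩
  · exact Module.Finite.of_injective (Ψ k) (hΨ k)
  · calc Module.finrank K (S k)
        ≤ Module.finrank K (Fin (Module.finrank E F) → M k) :=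
          LinearMap.finrank_le_finrank_of_injective (hΨ k)
      _ = Module.finrank E F * Module.finrank K (M k) := by
          rw [Module.finrank_pi_fintype]
          simp
      _ ≤ Module.finrank E F * Module.finrank K (restrictDegree ι K (k * α + β)) :=
          Nat.mul_le_mul_left _ (Submodule.finrank_map_le _ _)
      _ ≤ Module.finrank E F * (k * α + β + 1) ^ Fintype.card ι :=
          Nat.mul_le_mul_left _ (finrank_restrictDegree_le ι K _)
      _ ≤ Module.finrank E F * ((α + β + 1) * (k + 1)) ^ Fintype.card ι := by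
          apply Nat.mul_le_mul_left
          apply Nat.pow_le_pow_left
          nlinarith
      _ = Module.finrank E F * (α + β + 1) ^ Fintype.card ι * (k + 1) ^ Fintype.card ι := by
          rw [mul_pow, mul_assoc]

end Main

section Concrete

open MvPolynomial

/-- **Abstract upper bound, transcendence-basis form.**  `K` perfect, `F / K` a finitely generated
field extension, `S k` subspaces with a valuative bound with respect to nonzero `h j`.
Then there is a (finite, separating) transcendence basis `s` with `dim S k ≤ C (k+1)^#s`. -/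
theorem exists_transcendenceBasis_finrank_le
    {K F : Type*} [Field K] [Field F] [Algebra K F] [PerfectField K] [Algebra.EssFiniteType K F]
    {J : Type*} [Fintype J] (h : J → F) (hh : ∀ j, h j ≠ 0)
    (S : ℕ → Submodule K F)
    (hS : ∀ V : ValuationSubring F, (∀ c : K, algebraMap K F c ∈ V) →
        ∃ j, h j ∈ V ∧ ∀ k, ∀ f ∈ S k, f * h j ^ k ∈ V) :
    ∃ s : Finset F, IsTranscendenceBasis K ((↑) : s → F) ∧
      ∃ C : ℕ, ∀ k, Module.Finite K (S k) ∧ Module.finrank K (S k) ≤ C * (k + 1) ^ s.card := by
  classical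
  obtain ⟨s, hs, hsep⟩ := exists_isTranscendenceBasis_and_isSeparable_of_perfectField K F
  refine ⟨s, hs, ?_⟩
  have hx : AlgebraicIndependent K ((↑) : s → F) := hs.1
  have hinj : Function.Injective (aeval ((↑) : s → F) : MvPolynomial s K →ₐ[K] F) :=
    algebraicIndependent_iff_injective_aeval.1 hx
  let lft : FractionRing (MvPolynomial s K) →ₐ[K] F := IsFractionRing.liftAlgHom hinj
  let algEF : Algebra (FractionRing (MvPolynomial s K)) F := lft.toRingHom.toAlgebra
  have tower : IsScalarTower K (FractionRing (MvPolynomial s K)) F :=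
    IsScalarTower.of_algebraMap_eq (fun c => (lft.commutes c).symm)
  have hrange : IntermediateField.adjoin K (s : Set F) =
      IntermediateField.adjoin K (Set.range ((↑) : s → F)) := by
    congr 1
    exact Subtype.range_coe_subtype.symm
  let e₁ : IntermediateField.adjoin K (s : Set F) ≃+* FractionRing (MvPolynomial s K) :=
    ((IntermediateField.equivOfEq hrange).trans hx.aevalEquivField.symm).toRingEquiv
  have hcomm : (algebraMap (FractionRing (MvPolynomial s K)) F).comp (e₁ : _ →+* _) =
      ((RingEquiv.refl F : F ≃+* F) : F →+* F).comp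
        (algebraMap (IntermediateField.adjoin K (s : Set F)) F) := by
    ext y
    have := hx.lift_reprField (IntermediateField.equivOfEq hrange y)
    exact this
  have halg : Algebra.IsAlgebraic (IntermediateField.adjoin K (s : Set F)) F := inferInstance
  have hess : Algebra.EssFiniteType (IntermediateField.adjoin K (s : Set F)) F :=
    Algebra.EssFiniteType.of_comp K _ F
  have hfin₀ : Module.Finite (IntermediateField.adjoin K (s : Set F)) F :=
    Algebra.finite_of_essFiniteType_of_isAlgebraic
  have hfin : FiniteDimensional (FractionRing (MvPolynomial s K)) F :=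
    Module.Finite.of_equiv_equiv e₁ (RingEquiv.refl F) hcomm
  have hsep' : Algebra.IsSeparable (FractionRing (MvPolynomial s K)) F :=
    Algebra.IsSeparable.of_equiv_equiv e₁ (RingEquiv.refl F) hcomm
  have := finrank_le_of_valuative_bound_aux (K := K) (ι := s)
    (E := FractionRing (MvPolynomial s K)) (F := F) h hh S hS
  simpa using this

/-- **Abstract upper bound, `trdeg` form.** -/
theorem finrank_le_of_valuative_bound
    {K F : Type*} [Field K] [Field F] [Algebra K F] [PerfectField K] [Algebra.EssFiniteType K F]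
    (g : ℕ) (hg : Algebra.trdeg K F = g)
    {J : Type*} [Fintype J] (h : J → F) (hh : ∀ j, h j ≠ 0)
    (S : ℕ → Submodule K F)
    (hS : ∀ V : ValuationSubring F, (∀ c : K, algebraMap K F c ∈ V) →
        ∃ j, h j ∈ V ∧ ∀ k, ∀ f ∈ S k, f * h j ^ k ∈ V) :
    ∃ C : ℕ, ∀ k, Module.Finite K (S k) ∧ Module.finrank K (S k) ≤ C * (k + 1) ^ g := by
  obtain ⟨s, hs, C, hC⟩ := exists_transcendenceBasis_finrank_le h hh S hS
  have hcard : s.card = g := by
    have h1 := hs.cardinalMk_eq_trdeg
    rw [hg, Cardinal.mk_coe_finset] at h1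
    exact_mod_cast h1
  exact ⟨C, fun k => hcard ▸ hC k⟩

/-- The frozen P1 export `Fermat.Agent.S26.ubalg` (UBAlg.lean of the S26 skeleton), exact
signature. -/
theorem ubalg_export {K F : Type*} [Field K] [IsAlgClosed K] [Field F] [Algebra K F]
    [Algebra.EssFiniteType K F] (g : ℕ) (htr : Algebra.trdeg K F = (g : Cardinal))
    (S : ℕ → Submodule K F) (r : ℕ) (h : Fin r → F) (h0 : ∀ j, h j ≠ 0)
    (hval : ∀ O : ValuationSubring F, (∀ c : K, algebraMap K F c ∈ O) →
      ∃ j : Fin r, h j ∈ O ∧ ∀ (k : ℕ) (x : F), x ∈ S k → x * h j ^ k ∈ O) :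
    (∀ k : ℕ, Module.Finite K (S k)) ∧
      ∃ C : ℕ, ∀ k : ℕ, Module.finrank K (S k) ≤ C * (k + 1) ^ g := by
  obtain ⟨C, hC⟩ := finrank_le_of_valuative_bound g htr h h0 S (fun O hO => by
    obtain ⟨j, hj, hj'⟩ := hval O hO
    exact ⟨j, hj, fun k f hf => hj' k f hf⟩)
  exact ⟨fun k => (hC k).1, C, fun k => (hC k).2⟩

end Concrete

end Fermat.Agent.S26.UBALG

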